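import Mathlib

/-!
# Row LT, tower T7, asset of helper822: the parameters at the regular place (abstract form)

OFF-MAIN.  Mathlib only.  No `sorry`.

Abstract Iwahori--Hecke algebra of `GL₂` at one place acting on a complex inner product space:
`S` (the operator of `I s I`) is symmetric with `S² = (q - 1) S + q`, `ρ` (the operator of the
normaliser `ω` of `I`) is an isometry and `ρ²` (the scalar uniformiser) commutes with `S`.
`U = S ρ` (or `ρ S`) is the operator of `I diag(ϖ, 1) I`.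

* `zOp822 S ρ q = S ρ + ρ S - (q - 1) ρ` commutes with `S` and `ρ` (`zOp822_comm_S`,
  `zOp822_comm_rho`) and `U² = Z U - q ρ²` (`U_sq822`).
* `regParam_of_eigen822`: every joint eigenvalue `(b, μ)` of `(ρ², S ρ)` satisfies
  `‖b‖ = 1`, `‖μ / √q‖ ≤ √q` and (`‖μ / √q‖ = 1` or `(μ / √q)² = t b` with `t > 0`): this is
  `T7.IsRegParam (√q) b (μ / √q)` of `T7/Reg.lean`, for OLD and NEW vectors alike, with no
  newform theory.
* `regParam_of_eigen'822`: the same for `U = ρ S`.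
-/

set_option autoImplicit false

open scoped ComplexConjugate InnerProductSpace

namespace Fermat.Agent.LT.T7.H822

variable {V : Type*} [NormedAddCommGroup V] [InnerProductSpace ℂ V]

/-- The central element `Z = S ρ + ρ S - (q - 1) ρ` (the spherical Hecke operator in Iwahori
form). -/
def zOp822 (S ρ : Module.End ℂ V) (q : ℝ) : Module.End ℂ V :=
  S * ρ + ρ * S - ((q : ℂ) - 1) • ρ

theorem zOp822_comm_S (S ρ : Module.End ℂ V) (q : ℝ)
    (hq : S * S = ((q : ℂ) - 1) • S + (q : ℂ) • (1 : Module.End ℂ V)) :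
    zOp822 S ρ q * S = S * zOp822 S ρ q := by
  unfold zOp822
  have h1 : ρ * S * S = ((q : ℂ) - 1) • (ρ * S) + (q : ℂ) • ρ := by
    rw [mul_assoc, hq, mul_add, mul_smul_comm, mul_smul_comm, mul_one]
  have h2 : S * (S * ρ) = ((q : ℂ) - 1) • (S * ρ) + (q : ℂ) • ρ := by
    rw [← mul_assoc, hq, add_mul, smul_mul_assoc, smul_mul_assoc, one_mul]
  rw [sub_mul, add_mul, mul_sub, mul_add, h1, h2, smul_mul_assoc, mul_smul_comm]
  simp only [mul_assoc]
  abel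

theorem zOp822_comm_rho (S ρ : Module.End ℂ V) (q : ℝ)
    (hz : (ρ * ρ) * S = S * (ρ * ρ)) :
    zOp822 S ρ q * ρ = ρ * zOp822 S ρ q := by
  unfold zOp822
  rw [sub_mul, add_mul, mul_sub, mul_add, smul_mul_assoc, mul_smul_comm]
  have h1 : S * ρ * ρ = ρ * (ρ * S) := by
    rw [mul_assoc, ← hz, mul_assoc]
  rw [h1]
  simp only [mul_assoc]
  abel

/-- The quadratic relation of `U = S ρ` over the centre: `U² = Z U - q ρ²`. -/
theorem U_sq822 (S ρ : Module.End ℂ V) (q : ℝ)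
    (hq : S * S = ((q : ℂ) - 1) • S + (q : ℂ) • (1 : Module.End ℂ V)) :
    (S * ρ) * (S * ρ) = zOp822 S ρ q * (S * ρ) - (q : ℂ) • (ρ * ρ) := by
  unfold zOp822
  have h1 : ρ * S * (S * ρ) = ((q : ℂ) - 1) • (ρ * (S * ρ)) + (q : ℂ) • (ρ * ρ) := by
    rw [mul_assoc, ← mul_assoc S S ρ, hq, add_mul, smul_mul_assoc, smul_mul_assoc, one_mul,
      mul_add, mul_smul_comm, mul_smul_comm]
  rw [sub_mul, add_mul, h1, smul_mul_assoc]
  abel


/-- `⟪Z x, ρ² y⟫ = ⟪x, Z y⟫`: the adjoint of `Z` is `ρ⁻² Z` (no inverse needed). -/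
theorem inner_zOp822 (S ρ : Module.End ℂ V) (q : ℝ)
    (hS : ∀ x y : V, ⟪S x, y⟫_ℂ = ⟪x, S y⟫_ℂ)
    (hρ : ∀ x y : V, ⟪ρ x, ρ y⟫_ℂ = ⟪x, y⟫_ℂ)
    (hz : (ρ * ρ) * S = S * (ρ * ρ)) (x y : V) :
    ⟪zOp822 S ρ q x, (ρ * ρ) y⟫_ℂ = ⟪x, zOp822 S ρ q y⟫_ℂ := by
  have hz' : ∀ v : V, S (ρ (ρ v)) = ρ (ρ (S v)) := fun v => by
    have := congrArg (fun f : Module.End ℂ V => f v) hz
    simpa using this.symm
  have e1 : ⟪S (ρ x), ρ (ρ y)⟫_ℂ = ⟪x, ρ (S y)⟫_ℂ := by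
    rw [hS, hz', hρ]
  have e2 : ⟪ρ (S x), ρ (ρ y)⟫_ℂ = ⟪x, S (ρ y)⟫_ℂ := by
    rw [hρ, hS]
  have e3 : ⟪((q : ℂ) - 1) • ρ x, ρ (ρ y)⟫_ℂ = ⟪x, ((q : ℂ) - 1) • ρ y⟫_ℂ := by
    rw [inner_smul_left, inner_smul_right, hρ]
    congr 1
    simp
  simp only [zOp822, LinearMap.sub_apply, LinearMap.add_apply, Module.End.mul_apply,
    LinearMap.smul_apply, inner_sub_left, inner_add_left, inner_sub_right, inner_add_right]
  rw [e1, e2, e3]
  ring

/-- `‖S y‖ ≤ q ‖y‖` for a symmetric `S` with `S² = (q - 1) S + q`, `q ≥ 1`. -/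
theorem norm_S_le822 (S : Module.End ℂ V) (q : ℝ) (hq1 : 1 ≤ q)
    (hS : ∀ x y : V, ⟪S x, y⟫_ℂ = ⟪x, S y⟫_ℂ)
    (hSq : S * S = ((q : ℂ) - 1) • S + (q : ℂ) • (1 : Module.End ℂ V)) (y : V) :
    ‖S y‖ ≤ q * ‖y‖ := by
  have hSS : S (S y) = ((q : ℂ) - 1) • S y + (q : ℂ) • y := by
    have := congrArg (fun f : Module.End ℂ V => f y) hSq
    simpa using this
  have h1 : ⟪S y, S y⟫_ℂ = ((q : ℂ) - 1) * ⟪y, S y⟫_ℂ + (q : ℂ) * ⟪y, y⟫_ℂ := by
    rw [hS y (S y), hSS, inner_add_right, inner_smul_right, inner_smul_right]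
  have hre : ∀ v : V, (⟪v, v⟫_ℂ).re = ‖v‖ ^ 2 := fun v => by
    have := inner_self_eq_norm_sq (𝕜 := ℂ) v
    simpa using this
  have h2 : ‖S y‖ ^ 2 = (q - 1) * (⟪y, S y⟫_ℂ).re + q * ‖y‖ ^ 2 := by
    have := congrArg Complex.re h1
    have e : (((q : ℂ) - 1) * ⟪y, S y⟫_ℂ).re = (q - 1) * (⟪y, S y⟫_ℂ).re := by
      have : ((q : ℂ) - 1) = ((q - 1 : ℝ) : ℂ) := by push_cast; ring
      rw [this, Complex.re_ofReal_mul]
    rw [Complex.add_re, e, Complex.re_ofReal_mul, hre, hre] at this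
    exact this
  have h3 : (⟪y, S y⟫_ℂ).re ≤ ‖y‖ * ‖S y‖ :=
    (Complex.re_le_norm _).trans (norm_inner_le_norm y (S y))
  have h4 : ‖S y‖ ^ 2 ≤ (q - 1) * (‖y‖ * ‖S y‖) + q * ‖y‖ ^ 2 := by
    rw [h2]
    have := mul_le_mul_of_nonneg_left h3 (sub_nonneg.2 hq1)
    linarith
  by_contra hcon
  rw [not_le] at hcon
  have hn : 0 ≤ ‖y‖ := norm_nonneg y
  have hqn : 0 ≤ q * ‖y‖ := mul_nonneg (by linarith) hn
  have hp := mul_pos (sub_pos.2 hcon) (add_pos_of_pos_of_nonneg (lt_of_le_of_lt hqn hcon) hn)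
  nlinarith

/-- The algebra behind `IsRegParam`: a root `l` of `x² - a x + b` with `‖b‖ = 1` and
`conj a * b = a` has `‖l‖ = 1` or `l² = ‖l‖² b`. -/
theorem root_dichotomy822 {a b l : ℂ} (hb : ‖b‖ = 1) (ha : conj a * b = a)
    (hl : l ^ 2 + b = a * l) :
    ‖l‖ = 1 ∨ ∃ t : ℝ, 0 < t ∧ l ^ 2 = (t : ℂ) * b := by
  have hbb : b * conj b = 1 := by
    rw [Complex.mul_conj, Complex.normSq_eq_norm_sq, hb]
    simp
  have hl0 : l ≠ 0 := by
    rintro rfl
    have : b = 0 := by simpa using hl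
    rw [this] at hb
    simp at hb
  have hc : conj l ^ 2 + conj b = conj a * conj l := by
    have := congrArg conj hl
    simpa using this
  have hc' : b * conj l ^ 2 + 1 = a * conj l := by
    have : b * (conj l ^ 2 + conj b) = b * (conj a * conj l) := by rw [hc]
    rw [mul_add, hbb] at this
    rw [this]
    calc b * (conj a * conj l) = (conj a * b) * conj l := by ring
      _ = a * conj l := by rw [ha]
  have key : (l * conj l - 1) * (l - b * conj l) = 0 := by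
    have e1 : (l ^ 2 + b) * conj l = (b * conj l ^ 2 + 1) * l := by
      rw [hl, hc']
      ring
    linear_combination e1
  rcases mul_eq_zero.1 key with h | h
  · left
    have h1 : l * conj l = 1 := sub_eq_zero.1 h
    rw [Complex.mul_conj, Complex.normSq_eq_norm_sq] at h1
    have h2 : ‖l‖ ^ 2 = 1 := by exact_mod_cast h1
    have h3 : (‖l‖ - 1) * (‖l‖ + 1) = 0 := by ring_nf; linarith
    rcases mul_eq_zero.1 h3 with h4 | h4
    · linarith
    · have := norm_nonneg l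
      linarith
  · right
    refine ⟨‖l‖ ^ 2, by positivity, ?_⟩
    have h1 : l = b * conj l := sub_eq_zero.1 h
    have h2 : l ^ 2 = (l * conj l) * b := by
      calc l ^ 2 = l * l := sq l
        _ = l * (b * conj l) := by rw [← h1]
        _ = (l * conj l) * b := by ring
    rw [h2, Complex.mul_conj, Complex.normSq_eq_norm_sq]


theorem norm_rho822 (ρ : Module.End ℂ V) (hρ : ∀ x y : V, ⟪ρ x, ρ y⟫_ℂ = ⟪x, y⟫_ℂ) (v : V) :
    ‖ρ v‖ = ‖v‖ := by
  have h1 : ‖ρ v‖ ^ 2 = ‖v‖ ^ 2 := by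
    have e1 := inner_self_eq_norm_sq (𝕜 := ℂ) (ρ v)
    have e2 := inner_self_eq_norm_sq (𝕜 := ℂ) v
    rw [hρ] at e1
    rw [← e1, ← e2]
  have h2 := norm_nonneg (ρ v)
  have h3 := norm_nonneg v
  nlinarith

/-- **The parameters at the regular place** (`U = S ρ`).  Every joint eigenvalue `(b, μ)` of
`(ρ², S ρ)` satisfies `T7.IsRegParam (√q) b (μ / √q)`. -/
theorem regParam_of_eigen822 [FiniteDimensional ℂ V] (S ρ : Module.End ℂ V) (q : ℝ)
    (hq1 : 1 ≤ q)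
    (hS : ∀ x y : V, ⟪S x, y⟫_ℂ = ⟪x, S y⟫_ℂ)
    (hSq : S * S = ((q : ℂ) - 1) • S + (q : ℂ) • (1 : Module.End ℂ V))
    (hρ : ∀ x y : V, ⟪ρ x, ρ y⟫_ℂ = ⟪x, y⟫_ℂ)
    (hz : (ρ * ρ) * S = S * (ρ * ρ))
    {b μ : ℂ} {x : V} (hx : x ≠ 0) (hb : (ρ * ρ) x = b • x) (hμ : (S * ρ) x = μ • x) :
    ‖b‖ = 1 ∧ ‖μ / (Real.sqrt q : ℂ)‖ ≤ Real.sqrt q ∧
      (‖μ / (Real.sqrt q : ℂ)‖ = 1 ∨
        ∃ t : ℝ, 0 < t ∧ (μ / (Real.sqrt q : ℂ)) ^ 2 = (t : ℂ) * b) := by
  have hq0 : 0 < q := by linarith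
  have hs0 : 0 < Real.sqrt q := Real.sqrt_pos.2 hq0
  have hsC : (Real.sqrt q : ℂ) ≠ 0 := by exact_mod_cast hs0.ne'
  have hss : (Real.sqrt q : ℂ) ^ 2 = (q : ℂ) := by
    rw [← Complex.ofReal_pow, Real.sq_sqrt hq0.le]
  have hxn : 0 < ‖x‖ := norm_pos_iff.2 hx
  -- (a) `‖b‖ = 1`
  have hbn : ‖b‖ = 1 := by
    have h1 : ‖b‖ * ‖x‖ = ‖x‖ := by
      rw [← norm_smul, ← hb, Module.End.mul_apply, norm_rho822 ρ hρ, norm_rho822 ρ hρ]
    exact (mul_eq_right₀ hxn.ne').1 h1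
  -- (b) `‖μ‖ ≤ q`
  have hμn : ‖μ‖ ≤ q := by
    have h1 : ‖μ‖ * ‖x‖ ≤ q * ‖x‖ := by
      rw [← norm_smul, ← hμ, Module.End.mul_apply]
      refine (norm_S_le822 S q hq1 hS hSq (ρ x)).trans ?_
      rw [norm_rho822 ρ hρ]
    exact le_of_mul_le_mul_right h1 hxn
  -- (c) an eigenvector of `Z` in the joint eigenspace
  set Z := zOp822 S ρ q with hZ
  have hZS : Z * S = S * Z := zOp822_comm_S S ρ q hSq
  have hZρ : Z * ρ = ρ * Z := zOp822_comm_rho S ρ q hz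
  have hZz : ∀ v : V, Z (ρ (ρ v)) = ρ (ρ (Z v)) := fun v => by
    have e1 : ∀ w : V, Z (ρ w) = ρ (Z w) := fun w => by
      have := congrArg (fun f : Module.End ℂ V => f w) hZρ
      simpa using this
    rw [e1, e1]
  have hZU : ∀ v : V, Z (S (ρ v)) = S (ρ (Z v)) := fun v => by
    have e1 : ∀ w : V, Z (ρ w) = ρ (Z w) := fun w => by
      have := congrArg (fun f : Module.End ℂ V => f w) hZρ
      simpa using this
    have e2 : ∀ w : V, Z (S w) = S (Z w) := fun w => by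
      have := congrArg (fun f : Module.End ℂ V => f w) hZS
      simpa using this
    rw [e2, e1]
  let W : Submodule ℂ V :=
    { carrier := {v | ρ (ρ v) = b • v ∧ S (ρ v) = μ • v}
      add_mem' := by
        rintro u v ⟨hu1, hu2⟩ ⟨hv1, hv2⟩
        refine ⟨?_, ?_⟩
        · rw [map_add, map_add, hu1, hv1, smul_add]
        · rw [map_add, map_add, hu2, hv2, smul_add]
      zero_mem' := by
        refine ⟨?_, ?_⟩ <;> simp
      smul_mem' := by
        rintro c v ⟨hv1, hv2⟩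
        refine ⟨?_, ?_⟩
        · rw [map_smul, map_smul, hv1, smul_comm]
        · rw [map_smul, map_smul, hv2, smul_comm] }
  have hxW : x ∈ W := ⟨by simpa using hb, by simpa using hμ⟩
  have hZW : ∀ v ∈ W, Z v ∈ W := by
    rintro v ⟨hv1, hv2⟩
    refine ⟨?_, ?_⟩
    · rw [← hZz, hv1, map_smul]
    · rw [← hZU, hv2, map_smul]
  have : Nontrivial W := ⟨⟨⟨x, hxW⟩, 0, fun h => hx (by simpa using congrArg Subtype.val h)⟩⟩
  obtain ⟨t₀, ht₀⟩ := Module.End.exists_eigenvalue (Z.restrict hZW)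
  obtain ⟨w, hw⟩ := ht₀.exists_hasEigenvector
  have hw0 : (w : V) ≠ 0 := fun h => hw.2 (Subtype.ext h)
  have hwZ : Z (w : V) = t₀ • (w : V) := by
    have := congrArg Subtype.val hw.apply_eq_smul
    simpa using this
  obtain ⟨hw1, hw2⟩ : ρ (ρ (w : V)) = b • (w : V) ∧ S (ρ (w : V)) = μ • (w : V) := w.2
  -- (d) the quadratic equation
  have hquad : μ ^ 2 + (q : ℂ) * b = t₀ * μ := by
    have h1 := congrArg (fun f : Module.End ℂ V => f (w : V)) (U_sq822 S ρ q hSq)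
    simp only [Module.End.mul_apply, LinearMap.sub_apply, LinearMap.smul_apply] at h1
    rw [hw2, map_smul, map_smul, hw2, hw1, ← hZ, map_smul, hwZ, smul_smul, smul_smul,
      smul_smul, ← sub_smul] at h1
    have h2 := smul_left_injective ℂ hw0 h1
    linear_combination h2
  -- (e) the unitarity relation
  have hconj : conj t₀ * b = t₀ := by
    have h1 := inner_zOp822 S ρ q hS hρ hz (w : V) (w : V)
    rw [← hZ, hwZ, Module.End.mul_apply, hw1, inner_smul_left, inner_smul_right,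
      inner_smul_right] at h1
    have h0 : ⟪(w : V), (w : V)⟫_ℂ ≠ 0 := inner_self_ne_zero.2 hw0
    have h2 : (conj t₀ * b) * ⟪(w : V), (w : V)⟫_ℂ = t₀ * ⟪(w : V), (w : V)⟫_ℂ := by
      rw [← h1]
      ring
    exact mul_right_cancel₀ h0 h2
  -- (f) conclusion
  refine ⟨hbn, ?_, ?_⟩
  · rw [norm_div, Complex.norm_real, Real.norm_of_nonneg hs0.le, div_le_iff₀ hs0,
      ← sq, Real.sq_sqrt hq0.le]
    exact hμn
  · refine root_dichotomy822 (a := t₀ / (Real.sqrt q : ℂ)) hbn ?_ ?_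
    · rw [map_div₀, Complex.conj_ofReal, div_mul_eq_mul_div, hconj]
    · field_simp
      rw [hss]
      linear_combination hquad


/-- **The parameters at the regular place** (`U = ρ S`). -/
theorem regParam_of_eigen'822 [FiniteDimensional ℂ V] (S ρ : Module.End ℂ V) (q : ℝ)
    (hq1 : 1 ≤ q)
    (hS : ∀ x y : V, ⟪S x, y⟫_ℂ = ⟪x, S y⟫_ℂ)
    (hSq : S * S = ((q : ℂ) - 1) • S + (q : ℂ) • (1 : Module.End ℂ V))
    (hρ : ∀ x y : V, ⟪ρ x, ρ y⟫_ℂ = ⟪x, y⟫_ℂ)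
    (hz : (ρ * ρ) * S = S * (ρ * ρ))
    {b μ : ℂ} {x : V} (hx : x ≠ 0) (hb : (ρ * ρ) x = b • x) (hμ : (ρ * S) x = μ • x) :
    ‖b‖ = 1 ∧ ‖μ / (Real.sqrt q : ℂ)‖ ≤ Real.sqrt q ∧
      (‖μ / (Real.sqrt q : ℂ)‖ = 1 ∨
        ∃ t : ℝ, 0 < t ∧ (μ / (Real.sqrt q : ℂ)) ^ 2 = (t : ℂ) * b) := by
  have hq0 : (q : ℂ) ≠ 0 := by
    have : 0 < q := by linarith
    exact_mod_cast this.ne'
  have hSS : S (S x) = ((q : ℂ) - 1) • S x + (q : ℂ) • x := by
    have := congrArg (fun f : Module.End ℂ V => f x) hSq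
    simpa using this
  have hSx : S x ≠ 0 := by
    intro h
    rw [h, map_zero, smul_zero, zero_add] at hSS
    exact hx ((smul_eq_zero.1 hSS.symm).resolve_left hq0)
  have hz' : ∀ v : V, S (ρ (ρ v)) = ρ (ρ (S v)) := fun v => by
    have := congrArg (fun f : Module.End ℂ V => f v) hz
    simpa using this.symm
  refine regParam_of_eigen822 S ρ q hq1 hS hSq hρ hz hSx ?_ ?_
  · rw [Module.End.mul_apply, ← hz']
    have : ρ (ρ x) = b • x := by simpa using hb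
    rw [this, map_smul]
  · rw [Module.End.mul_apply]
    have : ρ (S x) = μ • x := by simpa using hμ
    rw [this, map_smul]

end Fermat.Agent.LT.T7.H822
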